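import Fermat.Agent.S10.Descent
import Fermat.Agent.Lib.KummerWiring

/-!
The generalised second case of Fermat's Last Theorem over the `p`-th cyclotomic integers, when
they form a principal ideal domain satisfying Kummer's lemma.
-/

set_option autoImplicit false

namespace Fermat.Agent.S10.CaseII

open NumberField Fermat.Agent.Lib.KummerDefs Fermat.Agent.Lib.KummerWiring
  Fermat.Agent.S10.Descent

variable {p : ℕ} [hp : Fact p.Prime] {K : Type*} [Field K] [NumberField K]
  [IsCyclotomicExtension {p} ℚ K]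

theorem exists_int_dvd_sub {ζ : K} (hζ : IsPrimitiveRoot ζ p) (x : 𝓞 K) :
    ∃ n : ℤ, (hζ.toInteger - 1) ∣ x - (n : 𝓞 K) := by
  have htop := IsCyclotomicExtension.Rat.adjoin_singleton_eq_top hζ
  have hx : x ∈ Algebra.adjoin ℤ {hζ.toInteger} := by rw [htop]; trivial
  induction hx using Algebra.adjoin_induction with
  | mem y hy =>
    rw [Set.mem_singleton_iff] at hy
    subst hy
    exact ⟨1, by simp⟩
  | algebraMap r => exact ⟨r, by simp⟩
  | add y z _ _ hy hz =>
    obtain ⟨m, hm⟩ := hy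
    obtain ⟨n, hn⟩ := hz
    refine ⟨m + n, ?_⟩
    have : y + z - ((m + n : ℤ) : 𝓞 K) = (y - m) + (z - n) := by push_cast; ring
    rw [this]
    exact dvd_add hm hn
  | mul y z _ _ hy hz =>
    obtain ⟨m, hm⟩ := hy
    obtain ⟨n, hn⟩ := hz
    refine ⟨m * n, ?_⟩
    have : y * z - ((m * n : ℤ) : 𝓞 K) = (y - m) * z + m * (z - n) := by push_cast; ring
    rw [this]
    exact dvd_add (Dvd.dvd.mul_right hm _) (Dvd.dvd.mul_left hn _)

theorem setup (hp2 : p ≠ 2) (hK : KummerLemma p K) {ζ : K} (hζ : IsPrimitiveRoot ζ p) :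
    Setup (𝓞 K) p hζ.toInteger where
  prime := hp.out
  odd := hp.out.odd_of_ne_two hp2
  root := hζ.toInteger_isPrimitiveRoot
  pi_prime := hζ.zeta_sub_one_prime'
  res := exists_int_dvd_sub hζ
  int_dvd := fun _ h => (IsCyclotomicExtension.Rat.zeta_sub_one_dvd_intCast_iff' p hζ).1 h
  p_dvd := (IsCyclotomicExtension.Rat.associated_zeta_sub_one_pow_prime p hζ).symm.dvd
  pow_int := exists_int_dvd_pow_sub
  kummer := hK

/-- The generalised second case. -/
theorem caseIIGen (hp2 : p ≠ 2) [IsPrincipalIdealRing (𝓞 K)] (hK : KummerLemma p K) :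
    CaseIIGen p K := by
  intro ζ hζ a b c u hc _ hb hcdvd hab
  exact (setup hp2 hK hζ).caseII a b c u hc hb hcdvd hab

end Fermat.Agent.S10.CaseII
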