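import Mathlib

/-!
Abstract Kummer descent (second case of Fermat's Last Theorem) in a principal ideal domain `R`
containing a primitive `p`-th root of unity `z` such that `z - 1` is prime with residue field
`𝔽_p`, and satisfying Kummer's lemma.
-/

set_option autoImplicit false
set_option linter.unusedSectionVars false

namespace Fermat.Agent.S10.Descent

open Polynomial Finset

/-- The abstract hypotheses for the descent. -/
structure Setup (R : Type*) [CommRing R] (p : ℕ) (z : R) : Prop where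
  prime : p.Prime
  odd : Odd p
  root : IsPrimitiveRoot z p
  pi_prime : Prime (z - 1)
  res : ∀ x : R, ∃ n : ℤ, (z - 1) ∣ x - (n : R)
  int_dvd : ∀ n : ℤ, (z - 1) ∣ (n : R) → (p : ℤ) ∣ n
  p_dvd : (p : R) ∣ (z - 1) ^ (p - 1)
  pow_int : ∀ x : R, ∃ n : ℤ, (p : R) ∣ x ^ p - (n : R)
  kummer : ∀ u : Rˣ, (∃ n : ℤ, (p : R) ∣ (u : R) - (n : R)) → ∃ v : Rˣ, u = v ^ p

variable {R : Type*} [CommRing R] [IsDomain R] {p : ℕ} {z : R}

lemma geom_sum_sub_natCast_dvd (z : R) (i : ℕ) :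
    (z - 1) ∣ (∑ j ∈ range i, z ^ j) - (i : R) := by
  induction i with
  | zero => simp
  | succ n ih =>
    rw [Finset.sum_range_succ]
    have h1 : (z - 1) ∣ z ^ n - 1 := by simpa using sub_dvd_pow_sub_pow z 1 n
    have h2 : (∑ j ∈ range n, z ^ j) + z ^ n - ((n + 1 : ℕ) : R) =
        ((∑ j ∈ range n, z ^ j) - n) + (z ^ n - 1) := by push_cast; ring
    rw [h2]
    exact dvd_add ih h1

namespace Setup

variable (S : Setup R p z)
include S

lemma three_le : 3 ≤ p := by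
  have h2 := S.prime.two_le
  rcases S.odd with ⟨k, hk⟩
  omega

lemma z_ne_one : z ≠ 1 := S.root.ne_one S.prime.one_lt

lemma pi_dvd_p : (z - 1) ∣ (p : R) :=
  sub_one_dvd_natCast_of_pow_eq_one S.root.pow_eq_one S.z_ne_one

lemma pi_dvd_int {n : ℤ} (h : (p : ℤ) ∣ n) : (z - 1) ∣ (n : R) := by
  obtain ⟨k, rfl⟩ := h
  push_cast
  exact Dvd.dvd.mul_right S.pi_dvd_p _

lemma pi_dvd_root_sub_one {η : R} (hη : η ∈ nthRootsFinset p (1 : R)) : (z - 1) ∣ η - 1 := by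
  have : NeZero p := ⟨S.prime.ne_zero⟩
  obtain ⟨i, -, rfl⟩ := S.root.eq_pow_of_pow_eq_one ((mem_nthRootsFinset S.prime.pos 1).1 hη)
  simpa using sub_dvd_pow_sub_pow z 1 i

lemma one_mem : (1 : R) ∈ nthRootsFinset p (1 : R) := by
  rw [mem_nthRootsFinset S.prime.pos]; simp

lemma z_mem : z ∈ nthRootsFinset p (1 : R) := by
  rw [mem_nthRootsFinset S.prime.pos]; exact S.root.pow_eq_one

lemma z_sq_mem : z ^ 2 ∈ nthRootsFinset p (1 : R) := by
  rw [mem_nthRootsFinset S.prime.pos, ← pow_mul, mul_comm, pow_mul, S.root.pow_eq_one, one_pow]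

lemma z_sq_ne_one : z ^ 2 ≠ 1 := by
  intro h
  have := S.root.dvd_of_pow_eq_one 2 h
  have h3 := S.three_le
  have := Nat.le_of_dvd (by norm_num) this
  omega

lemma z_sq_ne_z : z ^ 2 ≠ z := by
  intro h
  apply S.z_ne_one
  have hz0 : z ≠ 0 := S.root.ne_zero S.prime.ne_zero
  have : z * z = z * 1 := by rw [mul_one, ← sq, h]
  exact mul_left_cancel₀ hz0 this

lemma assoc_sub {η₁ η₂ : R} (h₁ : η₁ ∈ nthRootsFinset p (1 : R))
    (h₂ : η₂ ∈ nthRootsFinset p (1 : R)) (hne : η₁ ≠ η₂) : Associated (z - 1) (η₁ - η₂) :=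
  S.root.nthRootsFinset_pairwise_associated_sub_one_sub_of_prime S.prime h₁ h₂ hne

lemma isUnit_one_add : IsUnit (1 + z) := by
  obtain ⟨u, hu⟩ := S.assoc_sub S.z_sq_mem S.one_mem S.z_sq_ne_one
  have h0 : z - 1 ≠ 0 := S.pi_prime.ne_zero
  have : (z - 1) * (u : R) = (z - 1) * (1 + z) := by rw [hu]; ring
  rw [← mul_left_cancel₀ h0 this]
  exact u.isUnit

/-- If `π ∣ x + y` and `π ∤ y` then `π ^ 2 ∣ x + z ^ i * y` for some `i`. -/
lemma exists_sq_dvd {x y : R} (hxy : (z - 1) ∣ x + y) (hy : ¬ (z - 1) ∣ y) :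
    ∃ i : ℕ, (z - 1) ^ 2 ∣ x + z ^ i * y := by
  obtain ⟨w, hw⟩ := hxy
  obtain ⟨n, hn⟩ := S.res w
  obtain ⟨k, hk⟩ := S.res y
  have hpk : ¬ (p : ℤ) ∣ k := by
    intro h
    apply hy
    have := dvd_add hk (S.pi_dvd_int h)
    simpa using this
  have hcop : IsCoprime (p : ℤ) k :=
    (Nat.prime_iff_prime_int.1 S.prime).coprime_iff_not_dvd.2 hpk
  obtain ⟨a, b, hab⟩ := hcop
  have hp0 : (p : ℤ) ≠ 0 := by exact_mod_cast S.prime.ne_zero
  have hi : (((-n * b) % p).toNat : ℤ) = (-n * b) % p :=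
    Int.toNat_of_nonneg (Int.emod_nonneg _ hp0)
  set i := ((-n * b) % p).toNat with hidef
  have hdiv : (p : ℤ) ∣ n + i * k := by
    rw [hi]
    have h1 : (-n * b) % p = -n * b - p * ((-n * b) / p) := by
      have := Int.emod_add_mul_ediv (-n * b) p
      linarith
    rw [h1]
    refine ⟨n * a - ((-n * b) / p) * k, ?_⟩
    linear_combination (-n) * hab
  refine ⟨i, ?_⟩
  obtain ⟨g, hg⟩ := geom_sum_sub_natCast_dvd z i
  have hgeom := mul_geom_sum z i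
  have hfac : x + z ^ i * y = (z - 1) * (w + (∑ j ∈ range i, z ^ j) * y) := by
    linear_combination hw - y * hgeom
  rw [hfac, sq]
  apply mul_dvd_mul_left
  have hsplit : w + (∑ j ∈ range i, z ^ j) * y =
      (w - n) + ((∑ j ∈ range i, z ^ j) - i) * y + i * (y - k) + ((n + i * k : ℤ) : R) := by
    push_cast; ring
  rw [hsplit]
  exact dvd_add (dvd_add (dvd_add hn (Dvd.dvd.mul_right ⟨g, hg⟩ _)) (Dvd.dvd.mul_left hk _))
    (S.pi_dvd_int hdiv)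

end Setup

lemma exists_pow_of_prod [IsPrincipalIdealRing R] {ι : Type*} [DecidableEq ι] (s : Finset ι)
    (v : ι → R) (c : R) (ε : Rˣ) (k : ℕ)
    (hcop : ∀ i ∈ s, ∀ j ∈ s, i ≠ j → IsCoprime (v i) (v j))
    (hprod : ∏ i ∈ s, v i = ε * c ^ k) :
    ∀ i ∈ s, ∃ d : R, Associated (d ^ k) (v i) := by
  intro i hi
  have h1 : v i * ∏ j ∈ s.erase i, v j = ε * c ^ k := by
    rw [Finset.mul_prod_erase s v hi, hprod]
  refine exists_associated_pow_of_associated_pow_mul (c := c) (b := ∏ j ∈ s.erase i, v j) ?_ ?_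
  · exact IsCoprime.prod_right fun j hj =>
      hcop i hi j (Finset.mem_of_mem_erase hj) (Finset.ne_of_mem_erase hj).symm
  · rw [h1]
    exact ⟨ε, by ring⟩

namespace Setup

variable (S : Setup R p z) [IsPrincipalIdealRing R]
include S

/-- The key step of the descent, assuming `π ^ 2 ∣ x + y`. -/
lemma step_aux {x y c : R} {ε : Rˣ} {m : ℕ}
    (h : x ^ p + y ^ p = ε * ((z - 1) ^ (m + 1) * c) ^ p) (hxy : IsCoprime x y)
    (hy : ¬ (z - 1) ∣ y) (hc : ¬ (z - 1) ∣ c) (hsq : (z - 1) ^ 2 ∣ x + y) :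
    1 ≤ m ∧ ∃ (x' y' c' : R) (ε' : Rˣ), x' ^ p + y' ^ p = ε' * ((z - 1) ^ m * c') ^ p ∧
      IsCoprime x' y' ∧ ¬ (z - 1) ∣ y' ∧ ¬ (z - 1) ∣ c' := by
  classical
  have hp0 : p ≠ 0 := S.prime.ne_zero
  have hπ : Prime (z - 1) := S.pi_prime
  set π := z - 1 with hπdef
  set μ := nthRootsFinset p (1 : R) with hμ
  have hdvd : ∀ η ∈ μ, π ∣ x + η * y := by
    intro η hη
    have h1 : π ∣ x + y := dvd_trans (dvd_pow_self _ two_ne_zero) hsq
    have h2 := S.pi_dvd_root_sub_one hη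
    have h3 : x + η * y = (x + y) + (η - 1) * y := by ring
    rw [h3]
    exact dvd_add h1 (Dvd.dvd.mul_right h2 _)
  choose! w hw using hdvd
  have hwndvd : ∀ η ∈ μ, η ≠ 1 → ¬ π ∣ w η := by
    intro η hη hne hdiv
    obtain ⟨u, hu⟩ := S.assoc_sub hη S.one_mem hne
    obtain ⟨t, ht⟩ := hdiv
    obtain ⟨s, hs⟩ := hsq
    apply hy
    have h1 : π * (u * y) = π * (π * (t - s)) := by
      have h2 := hw η hη
      rw [ht] at h2
      linear_combination h2 - hs + y * hu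
    have h2 := mul_left_cancel₀ hπ.ne_zero h1
    have h3 : π ∣ (u : R) * y := ⟨_, h2⟩
    exact Units.dvd_mul_left.1 h3
  have hcop : ∀ η₁ ∈ μ, ∀ η₂ ∈ μ, η₁ ≠ η₂ → IsCoprime (w η₁) (w η₂) := by
    intro η₁ h₁ η₂ h₂ hne
    obtain ⟨u, hu⟩ := S.assoc_sub h₁ h₂ hne
    obtain ⟨a, b, hab⟩ := hxy
    have e1 := hw η₁ h₁
    have e2 := hw η₂ h₂
    have hy' : w η₁ - w η₂ = u * y := by
      apply mul_left_cancel₀ hπ.ne_zero
      linear_combination e2 - e1 - y * hu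
    have hx' : η₁ * w η₂ - η₂ * w η₁ = u * x := by
      apply mul_left_cancel₀ hπ.ne_zero
      linear_combination η₂ * e1 - η₁ * e2 - x * hu
    have hu1 : (↑u⁻¹ : R) * u = 1 := by simp
    refine ⟨(↑u⁻¹ : R) * (b - a * η₂), (↑u⁻¹ : R) * (a * η₁ - b), ?_⟩
    linear_combination (↑u⁻¹ : R) * b * hy' + (↑u⁻¹ : R) * a * hx' + (a * x + b * y) * hu1 + hab
  have hprod : ∏ η ∈ μ, w η = ε * (π ^ m * c) ^ p := by
    have h1 : ∏ η ∈ μ, (x + η * y) = π ^ p * ∏ η ∈ μ, w η := by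
      rw [Finset.prod_congr rfl hw, Finset.prod_mul_distrib, Finset.prod_const,
        S.root.card_nthRootsFinset]
    rw [← S.root.pow_add_pow_eq_prod_add_mul x y S.odd, h] at h1
    apply mul_left_cancel₀ (pow_ne_zero p hπ.ne_zero)
    rw [← h1]
    ring_nf
  have hsplit : ∏ η ∈ μ, w η = w 1 * ∏ η ∈ μ.erase 1, w η :=
    (Finset.mul_prod_erase μ w S.one_mem).symm
  have hrest : ¬ π ∣ ∏ η ∈ μ.erase 1, w η := by
    rw [hπ.dvd_finsetProd_iff]
    rintro ⟨η, hη, hd⟩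
    rw [Finset.mem_erase] at hη
    exact hwndvd η hη.2 hη.1 hd
  have hw1 : π ∣ w 1 := by
    obtain ⟨s, hs⟩ := hsq
    have h1 := hw 1 S.one_mem
    refine ⟨s, mul_left_cancel₀ hπ.ne_zero ?_⟩
    linear_combination hs - h1
  have hm : 1 ≤ m := by
    by_contra hm0
    have hm0 : m = 0 := by omega
    subst hm0
    apply hc
    have h1 : π ∣ ε * (π ^ 0 * c) ^ p := by
      rw [← hprod, hsplit]
      exact Dvd.dvd.mul_right hw1 _
    rw [pow_zero, one_mul, Units.dvd_mul_left] at h1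
    exact hπ.dvd_of_dvd_pow h1
  refine ⟨hm, ?_⟩
  have hpow : π ^ (m * p) ∣ w 1 := by
    apply hπ.pow_dvd_of_dvd_mul_right _ hrest
    rw [← hsplit, hprod, mul_pow, ← pow_mul]
    exact Dvd.dvd.mul_left (Dvd.intro _ rfl) _
  obtain ⟨w', hw'⟩ := hpow
  -- the modified family
  set v : R → R := fun η => if η = 1 then w' else w η with hv
  have hv1 : v 1 = w' := by simp [hv]
  have hvne : ∀ η, η ≠ 1 → v η = w η := fun η hη => by simp [hv, hη]
  have hvdvd : ∀ η, v η ∣ w η := by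
    intro η
    by_cases hη : η = 1
    · subst hη
      rw [hv1, hw']
      exact Dvd.intro_left _ rfl
    · rw [hvne η hη]
  have hvcop : ∀ η₁ ∈ μ, ∀ η₂ ∈ μ, η₁ ≠ η₂ → IsCoprime (v η₁) (v η₂) := by
    intro η₁ h₁ η₂ h₂ hne
    exact ((hcop η₁ h₁ η₂ h₂ hne).of_isCoprime_of_dvd_left (hvdvd η₁)).of_isCoprime_of_dvd_right
      (hvdvd η₂)
  have hvprod : ∏ η ∈ μ, v η = ε * c ^ p := by
    rw [← Finset.mul_prod_erase μ v S.one_mem, hv1]
    have h1 : ∏ η ∈ μ.erase 1, v η = ∏ η ∈ μ.erase 1, w η :=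
      Finset.prod_congr rfl fun η hη => hvne η (Finset.ne_of_mem_erase hη)
    rw [h1]
    apply mul_left_cancel₀ (pow_ne_zero (m * p) hπ.ne_zero)
    rw [← mul_assoc, ← hw', ← hsplit, hprod, mul_pow, ← pow_mul]
    ring
  have hpows := exists_pow_of_prod μ v c ε p hvcop hvprod
  obtain ⟨ρ₀, ε₀, h₀⟩ := hpows 1 S.one_mem
  obtain ⟨ρ₁, ε₁, h₁⟩ := hpows z S.z_mem
  obtain ⟨ρ₂, ε₂, h₂⟩ := hpows (z ^ 2) S.z_sq_mem
  rw [hv1] at h₀
  rw [hvne z S.z_ne_one] at h₁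
  rw [hvne (z ^ 2) S.z_sq_ne_one] at h₂
  have hρ₂ : ¬ π ∣ ρ₂ := by
    intro hd
    apply hwndvd (z ^ 2) S.z_sq_mem S.z_sq_ne_one
    rw [← h₂]
    exact Dvd.dvd.mul_right (dvd_pow hd hp0) _
  have hρ₀ : ¬ π ∣ ρ₀ := by
    intro hd
    apply hc
    have h1 : π ∣ ε * c ^ p := by
      rw [← hvprod, ← Finset.mul_prod_erase μ v S.one_mem, hv1, ← h₀]
      exact Dvd.dvd.mul_right (Dvd.dvd.mul_right (dvd_pow hd hp0) _) _
    rw [Units.dvd_mul_left] at h1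
    exact hπ.dvd_of_dvd_pow h1
  have hrel : w z * (1 + z) - w (z ^ 2) = z * (π ^ (m * p) * w') := by
    rw [← hw']
    apply mul_left_cancel₀ hπ.ne_zero
    linear_combination (-(1 + z)) * hw z S.z_mem + hw (z ^ 2) S.z_sq_mem + z * hw 1 S.one_mem
  obtain ⟨a, ha⟩ := S.isUnit_one_add
  obtain ⟨zU, hzU⟩ := S.root.isUnit hp0
  set e : Rˣ := ε₁ * a with he
  have hee : (e : R) * (↑e⁻¹ : R) = 1 := by simp
  have heval : (e : R) = ε₁ * (1 + z) := by rw [he, Units.val_mul, ha]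
  set δ : Rˣ := -(ε₂ * e⁻¹) with hδ
  set δ' : Rˣ := zU * ε₀ * e⁻¹ with hδ'
  have hδval : (δ : R) = -(ε₂ * (↑e⁻¹ : R)) := by rw [hδ, Units.val_neg, Units.val_mul]
  have hδ'val : (δ' : R) = z * ε₀ * (↑e⁻¹ : R) := by
    rw [hδ', Units.val_mul, Units.val_mul, hzU]
  have hnew : ρ₁ ^ p + δ * ρ₂ ^ p = δ' * (π ^ m * ρ₀) ^ p := by
    rw [← h₁, ← h₂, ← h₀] at hrel
    rw [hδval, hδ'val]
    rw [heval] at hee
    linear_combination (↑e⁻¹ : R) * hrel - ρ₁ ^ p * hee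
  -- Kummer's lemma
  have hpdvd : (p : R) ∣ ρ₁ ^ p + δ * ρ₂ ^ p := by
    rw [hnew, mul_pow, ← pow_mul]
    refine Dvd.dvd.mul_left (Dvd.dvd.mul_right (dvd_trans S.p_dvd (pow_dvd_pow _ ?_)) _) _
    calc p - 1 ≤ p := Nat.sub_le _ _
      _ = 1 * p := (one_mul p).symm
      _ ≤ m * p := Nat.mul_le_mul_right _ hm
  obtain ⟨n₁, hn₁⟩ := S.pow_int ρ₁
  obtain ⟨n₂, hn₂⟩ := S.pow_int ρ₂
  have hpn₂ : ¬ (p : ℤ) ∣ n₂ := by
    intro hd
    apply hρ₂
    have h1 : π ∣ ρ₂ ^ p - n₂ := dvd_trans S.pi_dvd_p hn₂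
    have h2 := dvd_add h1 (S.pi_dvd_int hd)
    rw [sub_add_cancel] at h2
    exact hπ.dvd_of_dvd_pow h2
  obtain ⟨a', b', hab'⟩ : IsCoprime (p : ℤ) n₂ :=
    (Nat.prime_iff_prime_int.1 S.prime).coprime_iff_not_dvd.2 hpn₂
  have hab'R : (a' : R) * p + b' * n₂ = 1 := by exact_mod_cast congrArg (Int.cast : ℤ → R) hab'
  obtain ⟨δ₁, hδ₁⟩ := S.kummer δ ⟨-(n₁ * b'), by
    have h1 : (δ : R) - ((-(n₁ * b') : ℤ) : R) =
        (p : R) * (δ * a') + b' * (ρ₁ ^ p + δ * ρ₂ ^ p) - b' * δ * (ρ₂ ^ p - n₂)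
          - b' * (ρ₁ ^ p - n₁) := by
      push_cast
      linear_combination (-(δ : R)) * hab'R
    rw [h1]
    exact dvd_sub (dvd_sub (dvd_add (Dvd.intro _ rfl) (Dvd.dvd.mul_left hpdvd _))
      (Dvd.dvd.mul_left hn₂ _)) (Dvd.dvd.mul_left hn₁ _)⟩
  refine ⟨ρ₁, δ₁ * ρ₂, ρ₀, δ', ?_, ?_, ?_, hρ₀⟩
  · rw [mul_pow, ← Units.val_pow_eq_pow_val, ← hδ₁]
    exact hnew
  · rw [isCoprime_mul_unit_left_right δ₁.isUnit]
    have h1 := hcop z S.z_mem (z ^ 2) S.z_sq_mem (fun h => S.z_sq_ne_z h.symm)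
    rw [← h₁, ← h₂] at h1
    exact (h1.of_isCoprime_of_dvd_left (Dvd.dvd.mul_right (dvd_pow_self _ hp0) _)).of_isCoprime_of_dvd_right
      (Dvd.dvd.mul_right (dvd_pow_self _ hp0) _)
  · rw [Units.dvd_mul_left]
    exact hρ₂

/-- The key step of the descent. -/
lemma step {x y c : R} {ε : Rˣ} {m : ℕ}
    (h : x ^ p + y ^ p = ε * ((z - 1) ^ (m + 1) * c) ^ p) (hxy : IsCoprime x y)
    (hy : ¬ (z - 1) ∣ y) (hc : ¬ (z - 1) ∣ c) :
    1 ≤ m ∧ ∃ (x' y' c' : R) (ε' : Rˣ), x' ^ p + y' ^ p = ε' * ((z - 1) ^ m * c') ^ p ∧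
      IsCoprime x' y' ∧ ¬ (z - 1) ∣ y' ∧ ¬ (z - 1) ∣ c' := by
  have hp0 : p ≠ 0 := S.prime.ne_zero
  have hπ : Prime (z - 1) := S.pi_prime
  have hπdvd : (z - 1) ∣ x ^ p + y ^ p := by
    rw [h, mul_pow, ← pow_mul]
    refine Dvd.dvd.mul_left (Dvd.dvd.mul_right (dvd_pow_self _ ?_) _) _
    exact Nat.mul_ne_zero (Nat.succ_ne_zero m) hp0
  have hadd : (z - 1) ∣ x + y := by
    rw [S.root.pow_add_pow_eq_prod_add_mul x y S.odd, hπ.dvd_finsetProd_iff] at hπdvd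
    obtain ⟨η, hη, hd⟩ := hπdvd
    have h1 := S.pi_dvd_root_sub_one hη
    have e : x + y = (x + η * y) - (η - 1) * y := by ring
    rw [e]
    exact dvd_sub hd (Dvd.dvd.mul_right h1 _)
  obtain ⟨i, hi⟩ := S.exists_sq_dvd hadd hy
  have hzi : (z ^ i) ^ p = 1 := by
    rw [← pow_mul, mul_comm, pow_mul, S.root.pow_eq_one, one_pow]
  have hzu : IsUnit (z ^ i) := (S.root.isUnit hp0).pow i
  refine S.step_aux (x := x) (y := z ^ i * y) (c := c) (ε := ε) (m := m) ?_ ?_ ?_ hc hi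
  · rw [mul_pow, hzi, one_mul]
    exact h
  · rwa [isCoprime_mul_unit_left_right hzu]
  · rwa [hzu.dvd_mul_left]

theorem no_solution : ∀ (m : ℕ) (x y c : R) (ε : Rˣ),
    x ^ p + y ^ p = ε * ((z - 1) ^ (m + 1) * c) ^ p → IsCoprime x y → ¬ (z - 1) ∣ y →
      ¬ (z - 1) ∣ c → False := by
  intro m
  induction m with
  | zero =>
    intro x y c ε h hxy hy hc
    have := (S.step h hxy hy hc).1
    omega
  | succ m ih =>
    intro x y c ε h hxy hy hc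
    obtain ⟨-, x', y', c', ε', h', hxy', hy', hc'⟩ := S.step h hxy hy hc
    exact ih x' y' c' ε' h' hxy' hy' hc'

/-- The generalised second case in the abstract setting. -/
theorem caseII (a b c : R) (u : Rˣ) (hc : c ≠ 0) (hb : ¬ (z - 1) ∣ b) (hcdvd : (z - 1) ∣ c)
    (hab : IsCoprime a b) : a ^ p + b ^ p ≠ u * c ^ p := by
  intro h
  obtain ⟨n, c', hc', rfl⟩ := WfDvdMonoid.max_power_factor hc S.pi_prime.irreducible
  rcases n with _ | n
  · rw [pow_zero, one_mul] at hcdvd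
    exact hc' hcdvd
  · exact S.no_solution n a b c' u h hab hb hc'

end Setup

end Fermat.Agent.S10.Descent
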